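import Fermat.Agent.S16.Defs

/-!
# S16, work package UB: arithmetic assembly of the upper bound

`upperBound_of` is the statement `Skel.upperBound_of` of the row skeleton
(`origin/helper556:Fermat/Agent/S16/Skeleton.lean`) with `UpperBound p` unfolded:
from (U0) "the constant term is rational and its denominator divides `p + 1` away from `p`",
(U2) "a unit constant mod `ℓ^a` forces `ℓ^a ∣ 24`" and (U4) "no odd constant mod `8` when
`p ≡ 7 mod 8`" we get `24 a₀(G) ∈ gcd(p - 1, 12) ℤ` for every `G ∈ M₂(Γ₀(p))` with integral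
higher coefficients.
-/

set_option autoImplicit false

noncomputable section

namespace Fermat.Agent.S16.H187

open UpperHalfPlane ModularForm CongruenceSubgroup MatrixGroups ModularFormClass
open Fermat.Agent.S20 (MF SF)
open scoped Manifold

/-! ### `q`-coefficients of scalar multiples -/

lemma T_mem_Gamma0 (p : ℕ) : ModularGroup.T ∈ Gamma0 p := by
  rw [Gamma0_mem]
  simp [ModularGroup.T]

lemma periodic_of_mem_MF {p : ℕ} {k : ℤ} {G : ℍ → ℂ} (hG : G ∈ MF (Gamma0 p) k) :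
    Function.Periodic (G ∘ ofComplex) ((1 : ℝ) : ℂ) := by
  have hT : ∀ z : ℍ, G ((1 : ℝ) +ᵥ z) = G z := by
    intro z
    have h := congrFun (hG.2.1 ModularGroup.T (T_mem_Gamma0 p)) z
    rw [SL_slash_apply, ModularGroup.denom_apply] at h
    simp only [ModularGroup.T, Matrix.SpecialLinearGroup.coe_mk, Matrix.of_apply,
      Matrix.cons_val', Matrix.cons_val_zero, Matrix.cons_val_one, Matrix.cons_val_fin_one,
      Int.cast_zero, zero_mul, Int.cast_one, zero_add, one_zpow, mul_one] at h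
    rw [← modular_T_smul]
    exact h
  intro w
  simp only [Function.comp_apply]
  by_cases hw : 0 < w.im
  · have hw' : 0 < (w + ((1 : ℝ) : ℂ)).im := by simpa using hw
    rw [ofComplex_apply_of_im_pos hw', ofComplex_apply_of_im_pos hw]
    have := hT ⟨w, hw⟩
    convert this using 2
    ext
    simp [add_comm]
  · have hw' : ¬ 0 < (w + ((1 : ℝ) : ℂ)).im := by simpa using hw
    rw [ofComplex_apply_of_im_nonpos (not_lt.mp hw'), ofComplex_apply_of_im_nonpos (not_lt.mp hw)]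

lemma isBoundedAtImInfty_of_mem_MF {Γ : Subgroup SL(2, ℤ)} {k : ℤ} {G : ℍ → ℂ}
    (hG : G ∈ MF Γ k) : IsBoundedAtImInfty G := by
  have := hG.2.2 1
  rwa [SlashAction.slash_one] at this

lemma qCoeff_smul_of_mem_MF {p : ℕ} {k : ℤ} {G : ℍ → ℂ} (hG : G ∈ MF (Gamma0 p) k) (c : ℂ)
    (n : ℕ) : qCoeff (c • G) n = c * qCoeff G n := by
  simp only [qCoeff]
  rw [UpperHalfPlane.qExpansion_smul (analyticAt_cuspFunction_zero one_pos
    (periodic_of_mem_MF hG) hG.1 (isBoundedAtImInfty_of_mem_MF hG))]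
  simp

/-! ### Arithmetic -/

lemma gcd_pred_twelve {p : ℕ} (hp : p.Prime) (hp5 : 5 ≤ p) :
    (p % 12 = 1 ∧ Nat.gcd (p - 1) 12 = 12) ∨ (p % 12 = 5 ∧ Nat.gcd (p - 1) 12 = 4) ∨
      (p % 12 = 7 ∧ Nat.gcd (p - 1) 12 = 6) ∨ (p % 12 = 11 ∧ Nat.gcd (p - 1) 12 = 2) := by
  have h2 : ¬ 2 ∣ p := fun h => by
    have := (Nat.prime_dvd_prime_iff_eq Nat.prime_two hp).mp h
    omega
  have h3 : ¬ 3 ∣ p := fun h => by
    have := (Nat.prime_dvd_prime_iff_eq Nat.prime_three hp).mp h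
    omega
  have hg : Nat.gcd (p - 1) 12 = Nat.gcd ((p - 1) % 12) 12 := by
    rw [Nat.gcd_comm, Nat.gcd_rec 12, Nat.gcd_comm]
  have h2' : p % 2 = 1 := by
    rcases Nat.mod_two_eq_zero_or_one p with h | h
    · exact absurd (Nat.dvd_of_mod_eq_zero h) h2
    · exact h
  have h3' : p % 3 ≠ 0 := fun h => h3 (Nat.dvd_of_mod_eq_zero h)
  have hcases : p % 12 = 1 ∨ p % 12 = 5 ∨ p % 12 = 7 ∨ p % 12 = 11 := by omega
  rcases hcases with h | h | h | h
  · left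
    refine ⟨h, ?_⟩
    rw [hg, show (p - 1) % 12 = 0 by omega]
    norm_num
  · right; left
    refine ⟨h, ?_⟩
    rw [hg, show (p - 1) % 12 = 4 by omega]
    norm_num
  · right; right; left
    refine ⟨h, ?_⟩
    rw [hg, show (p - 1) % 12 = 6 by omega]
    norm_num
  · right; right; right
    refine ⟨h, ?_⟩
    rw [hg, show (p - 1) % 12 = 10 by omega]
    norm_num

/-- the arithmetic core: a denominator `t` dividing `24`, not divisible by `8`, whose prime-power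
divisors prime to `p` divide `p + 1`, satisfies `t * gcd (p - 1) 12 ∣ 24`. -/
lemma den_mul_gcd_dvd {p t : ℕ} (hp : p.Prime) (hp5 : 5 ≤ p) (ht24 : t ∣ 24) (h8 : ¬ 8 ∣ t)
    (h4 : 4 ∣ t → 4 ∣ p + 1) (h3 : 3 ∣ t → 3 ∣ p + 1) : t * Nat.gcd (p - 1) 12 ∣ 24 := by
  have htle : t ≤ 24 := Nat.le_of_dvd (by norm_num) ht24
  have htpos : 0 < t := Nat.pos_of_dvd_of_pos ht24 (by norm_num)
  rcases gcd_pred_twelve hp hp5 with ⟨h, hg⟩ | ⟨h, hg⟩ | ⟨h, hg⟩ | ⟨h, hg⟩ <;> rw [hg] <;>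
    interval_cases t <;> first
      | (exfalso; revert ht24; decide)
      | (exfalso; apply h8; decide)
      | (exfalso; have := h4 (by decide); omega)
      | (exfalso; have := h3 (by decide); omega)
      | decide

/-! ### The assembly -/

/-- **WP UB** (`Skel.upperBound_of`, with `UpperBound p` unfolded). -/
theorem upperBound_of (p : ℕ) [Fact p.Prime] (hp5 : 5 ≤ p)
    (hU0 : ∀ G ∈ MF (Gamma0 p) 2, IntFrom1 G →
      ∃ r : ℚ, qCoeff G 0 = (r : ℂ) ∧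
        ∀ ℓ : ℕ, ℓ.Prime → ℓ ≠ p → ∀ a : ℕ, ℓ ^ a ∣ r.den → ℓ ^ a ∣ p + 1)
    (hU2 : ∀ G ∈ MF (Gamma0 p) 2, ∀ (ℓ : ℕ), ℓ.Prime → ∀ (a : ℕ) (s : ℤ), ¬ (ℓ : ℤ) ∣ s →
      qCoeff G 0 = (s : ℂ) →
      (∀ k : ℕ, 1 ≤ k → ∃ m : ℤ, qCoeff G k = ((ℓ : ℂ) ^ a) * (m : ℂ)) → ℓ ^ a ∣ 24)
    (hU4 : p % 8 = 7 → ∀ G ∈ MF (Gamma0 p) 2, ∀ s : ℤ, Odd s → qCoeff G 0 = (s : ℂ) →
      (∀ k : ℕ, 1 ≤ k → ∃ m : ℤ, qCoeff G k = 8 * (m : ℂ)) → False) :
    ∀ G ∈ MF (Gamma0 p) 2, IntFrom1 G →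
      ∃ m : ℤ, 24 * qCoeff G 0 = (Nat.gcd (p - 1) 12 : ℂ) * (m : ℂ) := by
  intro G hG hint
  have hp : p.Prime := Fact.out
  obtain ⟨r, hr, hden⟩ := hU0 G hG hint
  -- the scaled form `t • G`
  have ht0 : (r.den : ℂ) ≠ 0 := by exact_mod_cast r.den_ne_zero
  have hG' : ((r.den : ℂ) • G) ∈ MF (Gamma0 p) 2 := (MF (Gamma0 p) 2).smul_mem _ hG
  have h0' : qCoeff ((r.den : ℂ) • G) 0 = ((r.num : ℤ) : ℂ) := by
    rw [qCoeff_smul_of_mem_MF hG, hr]
    have : (r : ℂ) = (r.num : ℂ) / (r.den : ℂ) := by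
      rw [Rat.cast_def]
    rw [this]
    field_simp
  have hk' : ∀ d : ℕ, d ∣ r.den → ∀ k : ℕ, 1 ≤ k →
      ∃ m : ℤ, qCoeff ((r.den : ℂ) • G) k = (d : ℂ) * (m : ℂ) := by
    rintro d ⟨e, he⟩ k hk
    obtain ⟨m, hm⟩ := hint k hk
    refine ⟨(e : ℤ) * m, ?_⟩
    rw [qCoeff_smul_of_mem_MF hG, hm]
    conv_lhs => rw [he]
    push_cast
    ring
  -- the numerator is prime to every prime dividing the denominator
  have hcop : ∀ ℓ : ℕ, ℓ.Prime → ℓ ∣ r.den → ¬ (ℓ : ℤ) ∣ r.num := by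
    intro ℓ hℓ hd hn
    have h1 : ℓ ∣ r.num.natAbs := Int.natCast_dvd.mp hn
    have := Nat.dvd_gcd h1 hd
    rw [r.reduced.gcd_eq_one] at this
    exact hℓ.one_lt.ne' (Nat.dvd_one.mp this)
  -- (A) `t ∣ 24`
  have hA : r.den ∣ 24 := by
    rw [Nat.dvd_iff_prime_pow_dvd_dvd]
    intro ℓ a hℓ hd
    rcases Nat.eq_zero_or_pos a with ha | ha
    · rw [ha, pow_zero]; exact one_dvd _
    · have hℓd : ℓ ∣ r.den := (dvd_pow_self ℓ ha.ne').trans hd
      refine hU2 _ hG' ℓ hℓ a r.num (hcop ℓ hℓ hℓd) h0' (fun k hk => ?_)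
      obtain ⟨m, hm⟩ := hk' (ℓ ^ a) hd k hk
      exact ⟨m, by rw [hm]; push_cast; ring⟩
  have hp2 : (2 : ℕ) ≠ p := by omega
  have hp3 : (3 : ℕ) ≠ p := by omega
  -- (C) `8 ∤ t`
  have hC : ¬ 8 ∣ r.den := by
    intro h8
    have h8' : 8 ∣ p + 1 := by
      have := hden 2 Nat.prime_two hp2 3 (by simpa using h8)
      simpa using this
    have hodd : Odd r.num := by
      rcases Int.even_or_odd r.num with he | ho
      · exact absurd he.two_dvd (by
          have := hcop 2 Nat.prime_two ((by decide : 2 ∣ 8).trans h8)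
          simpa using this)
      · exact ho
    refine hU4 (by omega) _ hG' r.num hodd h0' (fun k hk => ?_)
    obtain ⟨m, hm⟩ := hk' 8 h8 k hk
    exact ⟨m, by rw [hm]; push_cast; ring⟩
  have h4 : 4 ∣ r.den → 4 ∣ p + 1 := by
    intro h
    have := hden 2 Nat.prime_two hp2 2 (by simpa using h)
    simpa using this
  have h3 : 3 ∣ r.den → 3 ∣ p + 1 := by
    intro h
    have := hden 3 Nat.prime_three hp3 1 (by simpa using h)
    simpa using this
  obtain ⟨c, hc⟩ := den_mul_gcd_dvd hp hp5 hA hC h4 h3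
  refine ⟨(c : ℤ) * r.num, ?_⟩
  rw [hr]
  have hrc : (r : ℂ) = (r.num : ℂ) / (r.den : ℂ) := by rw [Rat.cast_def]
  rw [hrc]
  have h24 : (24 : ℂ) = (r.den : ℂ) * (Nat.gcd (p - 1) 12 : ℂ) * (c : ℂ) := by
    exact_mod_cast congrArg (Nat.cast : ℕ → ℂ) hc
  rw [h24]
  push_cast
  field_simp

end Fermat.Agent.S16.H187
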